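import Fermat.Agent.Jac.Skeleton3
import Fermat.Agent.Jac.HKM

/-!
# IN-JAC, task HKL: operators on cusp forms induced by endomorphisms of the lattice

`h57_Compat N B b`: the operator `B` on `S₂(Γ₀(N))` is induced, through the period map, by the
endomorphism `b` of the lattice `Λ = Hom_par(Γ₀(N), ℤ)`.  The operators `B` admitting such a `b`
form a `ℤ`-subalgebra `h57_L N` of `End_ℂ(S₂)`, finitely generated as a `ℤ`-module.
-/

set_option autoImplicit false
set_option linter.unusedSectionVars false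

open ModularCurve AlgebraicCurve UpperHalfPlane CongruenceSubgroup
open scoped MatrixGroups

noncomputable section

namespace Fermat.Agent.Jac.HKL

open Fermat.Agent.Jac.HKM

variable {N : ℕ} [NeZero N]

/-- the operator `B` on cusp forms is induced by the endomorphism `b` of the lattice -/
def h57_Compat (N : ℕ) [NeZero N] (B : Module.End ℂ (CuspForm (Gamma0 N) 2))
    (b : Module.End ℤ (h57_Lam N)) : Prop :=
  ∀ (g : CuspForm (Gamma0 N) 2) (r : ℕ) (a : Fin r → ℂ) (φ : Fin r → h57_Lam N),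
    periodMap N g = ∑ i, a i • h57_j N (φ i) →
    periodMap N (B g) = ∑ i, a i • h57_j N (b (φ i))

theorem h57_periodMap_add (g g' : CuspForm (Gamma0 N) 2) :
    periodMap N (g + g') = periodMap N g + periodMap N g' :=
  (Fermat.Agent.S21.P.periodMapLinear N).map_add g g'

theorem h57_periodMap_smul (c : ℂ) (g : CuspForm (Gamma0 N) 2) :
    periodMap N (c • g) = c • periodMap N g :=
  (Fermat.Agent.S21.P.periodMapLinear N).map_smul c g

theorem h57_periodMap_zsmul (c : ℤ) (g : CuspForm (Gamma0 N) 2) :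
    periodMap N (c • g) = c • periodMap N g :=
  map_zsmul (Fermat.Agent.S21.P.periodMapLinear N) c g

theorem h57_periodMap_zero : periodMap N (0 : CuspForm (Gamma0 N) 2) = 0 :=
  (Fermat.Agent.S21.P.periodMapLinear N).map_zero

theorem h57_periodMap_eq_zero {g : CuspForm (Gamma0 N) 2} (h : periodMap N g = 0) : g = 0 := by
  by_contra hg
  exact h57_periodMap_ne_zero g hg h

theorem h57_Compat_zero : h57_Compat N 0 0 := by
  intro g r a φ _
  rw [LinearMap.zero_apply, h57_periodMap_zero]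
  simp

theorem h57_Compat_one : h57_Compat N 1 1 := by
  intro g r a φ h
  exact h

theorem h57_Compat_add {B B' : Module.End ℂ (CuspForm (Gamma0 N) 2)}
    {b b' : Module.End ℤ (h57_Lam N)} (h : h57_Compat N B b) (h' : h57_Compat N B' b') :
    h57_Compat N (B + B') (b + b') := by
  intro g r a φ hg
  rw [LinearMap.add_apply, h57_periodMap_add, h g r a φ hg, h' g r a φ hg,
    ← Finset.sum_add_distrib]
  refine Finset.sum_congr rfl fun i _ => ?_
  rw [LinearMap.add_apply, map_add, smul_add]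

theorem h57_Compat_mul {B B' : Module.End ℂ (CuspForm (Gamma0 N) 2)}
    {b b' : Module.End ℤ (h57_Lam N)} (h : h57_Compat N B b) (h' : h57_Compat N B' b') :
    h57_Compat N (B * B') (b * b') := by
  intro g r a φ hg
  exact h (B' g) r a (fun i => b' (φ i)) (h' g r a φ hg)

theorem h57_Compat_zsmul {B : Module.End ℂ (CuspForm (Gamma0 N) 2)}
    {b : Module.End ℤ (h57_Lam N)} (c : ℤ) (h : h57_Compat N B b) :
    h57_Compat N (c • B) (c • b) := by
  intro g r a φ hg
  rw [LinearMap.smul_apply, h57_periodMap_zsmul, h g r a φ hg, Finset.smul_sum]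
  refine Finset.sum_congr rfl fun i _ => ?_
  rw [LinearMap.smul_apply, map_zsmul, smul_comm]

theorem h57_Compat_algebraMap (c : ℤ) :
    h57_Compat N (algebraMap ℤ (Module.End ℂ (CuspForm (Gamma0 N) 2)) c)
      (algebraMap ℤ (Module.End ℤ (h57_Lam N)) c) := by
  rw [Algebra.algebraMap_eq_smul_one, Algebra.algebraMap_eq_smul_one]
  exact h57_Compat_zsmul c h57_Compat_one

/-- division by a nonzero natural number -/
theorem h57_Compat_div {B : Module.End ℂ (CuspForm (Gamma0 N) 2)}
    {b : Module.End ℤ (h57_Lam N)} {n : ℕ} (hn : n ≠ 0) (h : h57_Compat N B (n • b)) :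
    h57_Compat N ((n : ℂ)⁻¹ • B) b := by
  intro g r a φ hg
  have hn' : (n : ℂ) ≠ 0 := Nat.cast_ne_zero.mpr hn
  rw [LinearMap.smul_apply, h57_periodMap_smul, h g r a φ hg, Finset.smul_sum]
  refine Finset.sum_congr rfl fun i _ => ?_
  rw [LinearMap.smul_apply, map_nsmul, ← Nat.cast_smul_eq_nsmul ℂ, smul_comm (a i),
    smul_smul, inv_mul_cancel₀ hn', one_smul]

/-- every period homomorphism is a complex combination of integral parabolic homomorphisms -/
theorem h57_exists_decomp (hLam : LatticeSpanStatement) (g : CuspForm (Gamma0 N) 2) :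
    ∃ (r : ℕ) (a : Fin r → ℂ) (φ : Fin r → h57_Lam N),
      periodMap N g = ∑ i, a i • h57_j N (φ i) := by
  obtain ⟨r, a, φs, hφs, hsum⟩ := hLam N (periodMap N g)
    (Fermat.Agent.S21.P.periodMap_mem_parabolicHoms N g)
  refine ⟨r, a, fun i => ⟨φs i, hφs i⟩, ?_⟩
  refine AddMonoidHom.ext fun γ => ?_
  obtain ⟨γ, rfl⟩ := Additive.ofMul.surjective γ
  rw [hsum γ, AddMonoidHom.finsetSum_apply]
  refine Finset.sum_congr rfl fun i _ => ?_
  rfl

/-- the lattice endomorphism determines the operator -/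
theorem h57_Compat_eq_zero (hLam : LatticeSpanStatement)
    {B : Module.End ℂ (CuspForm (Gamma0 N) 2)} (h : h57_Compat N B 0) : B = 0 := by
  apply LinearMap.ext
  intro g
  obtain ⟨r, a, φ, hg⟩ := h57_exists_decomp hLam g
  have h1 := h g r a φ hg
  rw [LinearMap.zero_apply]
  apply h57_periodMap_eq_zero
  rw [h1]
  simp

/-- the Hecke operator `T_ℓ` on cusp forms is induced by the cohomological Hecke operator -/
theorem h57_Compat_T (hCoh : CohHeckeStatement) (hPer : PeriodHeckeStatement) {ℓ : ℕ}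
    (hℓ : ℓ.Prime) (hℓN : ¬ ℓ ∣ N) :
    h57_Compat N (CuspForm.heckeTLin 2 hℓ hℓN) (h57_TLam hCoh N ℓ) := by
  intro g r a φ hg
  have h1 : h57_SC hCoh N ℓ (periodMap N g) = periodMap N (CuspForm.heckeTLin 2 hℓ hℓN g) := by
    rw [h57_SC_apply]
    exact h57_Tfun_eq_of hCoh ⟨hℓ, hℓN⟩ (hPer N ℓ hℓ hℓN g)
  rw [← h1, hg, map_sum]
  refine Finset.sum_congr rfl fun i _ => ?_
  rw [map_smul, h57_SC_j]

/-! ## the lattice of induced operators -/

/-- the `ℤ`-subalgebra of the operators on cusp forms induced by endomorphisms of the lattice -/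
def h57_L (N : ℕ) [NeZero N] : Subalgebra ℤ (Module.End ℂ (CuspForm (Gamma0 N) 2)) where
  carrier := {B | ∃ b : Module.End ℤ (h57_Lam N), h57_Compat N B b}
  mul_mem' := by
    rintro B B' ⟨b, hb⟩ ⟨b', hb'⟩
    exact ⟨b * b', h57_Compat_mul hb hb'⟩
  one_mem' := ⟨1, h57_Compat_one⟩
  add_mem' := by
    rintro B B' ⟨b, hb⟩ ⟨b', hb'⟩
    exact ⟨b + b', h57_Compat_add hb hb'⟩
  zero_mem' := ⟨0, h57_Compat_zero⟩
  algebraMap_mem' := fun c => ⟨_, h57_Compat_algebraMap c⟩

theorem h57_mem_L {B : Module.End ℂ (CuspForm (Gamma0 N) 2)} :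
    B ∈ h57_L N ↔ ∃ b : Module.End ℤ (h57_Lam N), h57_Compat N B b := Iff.rfl

/-- the module of compatible pairs -/
def h57_Pairs (N : ℕ) [NeZero N] :
    Submodule ℤ (Module.End ℂ (CuspForm (Gamma0 N) 2) × Module.End ℤ (h57_Lam N)) where
  carrier := {x | h57_Compat N x.1 x.2}
  add_mem' := fun hx hy => h57_Compat_add hx hy
  zero_mem' := h57_Compat_zero
  smul_mem' := fun c _ hx => h57_Compat_zsmul c hx

theorem h57_L_fg (hLam : LatticeSpanStatement) (hLamFG : LatticeFGStatement) :
    (Subalgebra.toSubmodule (h57_L N)).FG := by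
  classical
  have hfin : Module.Finite ℤ (h57_Lam N) := Module.Finite.iff_fg.mpr (hLamFG N)
  have htf : IsAddTorsionFree (h57_Lam N) := h57_isAddTorsionFree_Lam N
  have hfree : Module.Free ℤ (h57_Lam N) := inferInstance
  have hfinEnd : Module.Finite ℤ (Module.End ℤ (h57_Lam N)) :=
    Module.Finite.linearMap ℤ ℤ (h57_Lam N) (h57_Lam N)
  have hnoeth : IsNoetherian ℤ (Module.End ℤ (h57_Lam N)) := inferInstance
  have hpairs : (h57_Pairs N).FG := by
    refine Submodule.fg_of_fg_map_of_fg_inf_ker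
      (LinearMap.snd ℤ (Module.End ℂ (CuspForm (Gamma0 N) 2)) (Module.End ℤ (h57_Lam N)))
      (IsNoetherian.noetherian _) ?_
    have hbot : h57_Pairs N ⊓ LinearMap.ker
        (LinearMap.snd ℤ (Module.End ℂ (CuspForm (Gamma0 N) 2)) (Module.End ℤ (h57_Lam N)))
          = ⊥ := by
      rw [eq_bot_iff]
      rintro ⟨B, b⟩ ⟨hx, hker⟩
      have hb : b = 0 := hker
      subst hb
      have hB : B = 0 := h57_Compat_eq_zero hLam hx
      subst hB
      exact Submodule.zero_mem _
    rw [hbot]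
    exact Submodule.fg_bot
  have hmap : Subalgebra.toSubmodule (h57_L N) = (h57_Pairs N).map
      (LinearMap.fst ℤ (Module.End ℂ (CuspForm (Gamma0 N) 2)) (Module.End ℤ (h57_Lam N))) := by
    ext B
    constructor
    · rintro ⟨b, hb⟩
      exact ⟨(B, b), hb, rfl⟩
    · rintro ⟨⟨B', b⟩, hb, rfl⟩
      exact ⟨b, hb⟩
  rw [hmap]
  exact hpairs.map _

end Fermat.Agent.Jac.HKL

end
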